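import Mathlib

/-!
# S13 library: the elementary group theory of a group of order `p²` with a stable line

`V` is a finite abelian group with `p²` elements, `L` a subgroup with `L ≠ ⊥`, `L ≠ ⊤`
(so `L` has `p` elements).

* `la_card_cases`: a subgroup of `V` is `⊥`, `⊤` or has `p` elements;
* `la_unipotent`: if `f : V →+ V` preserves `L`, moves every element inside a subgroup `V₀`
  which it fixes pointwise, then `f` fixes `L` pointwise and moves every element inside `L`;
* `la_at_p`: if `F ≠ ⊤` is a subgroup then either `L ≤ F` and `F = L`, or `L ⊓ F = ⊥`.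
-/

set_option autoImplicit false

namespace Fermat.Agent.S13

section

variable {V : Type*} [AddCommGroup V] [Finite V] {p : ℕ}

/-- a subgroup of a group of order `p²` is trivial, everything, or has order `p`. -/
lemma la_card_cases (hp : p.Prime) (hV : Nat.card V = p ^ 2) (X : AddSubgroup V) :
    X = ⊥ ∨ Nat.card X = p ∨ X = ⊤ := by
  have hdvd : Nat.card X ∣ p ^ 2 := hV ▸ AddSubgroup.card_addSubgroup_dvd_card X
  obtain ⟨m, hm, hXm⟩ := (Nat.dvd_prime_pow hp).mp hdvd
  interval_cases m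
  · left; exact AddSubgroup.eq_bot_of_card_eq X (by simpa using hXm)
  · right; left; simpa using hXm
  · right; right; exact AddSubgroup.eq_top_of_card_eq X (by rw [hXm, hV])

/-- a proper nonzero subgroup has order `p`. -/
lemma la_card_line (hp : p.Prime) (hV : Nat.card V = p ^ 2) {L : AddSubgroup V} (hL0 : L ≠ ⊥)
    (hL1 : L ≠ ⊤) : Nat.card L = p := by
  rcases la_card_cases hp hV L with h | h | h
  · exact absurd h hL0
  · exact h
  · exact absurd h hL1

/-- a subgroup containing a line and different from `⊤` is that line. -/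
lemma la_eq_of_le (hp : p.Prime) (hV : Nat.card V = p ^ 2) {L X : AddSubgroup V} (hL0 : L ≠ ⊥)
    (hL1 : L ≠ ⊤) (hLX : L ≤ X) (hX : X ≠ ⊤) : X = L := by
  have hL := la_card_line hp hV hL0 hL1
  have hX0 : X ≠ ⊥ := fun h => hL0 (le_bot_iff.mp (h ▸ hLX))
  have hXc := la_card_line hp hV hX0 hX
  exact (AddSubgroup.eq_of_le_of_card_ge hLX (by rw [hL, hXc])).symm

/-- a line not contained in `X` meets `X` trivially. -/
lemma la_inf_eq_bot (hp : p.Prime) (hV : Nat.card V = p ^ 2) {L X : AddSubgroup V} (hL0 : L ≠ ⊥)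
    (hL1 : L ≠ ⊤) (hLX : ¬ L ≤ X) : L ⊓ X = ⊥ := by
  have hL := la_card_line hp hV hL0 hL1
  rcases la_card_cases hp hV (L ⊓ X) with h | h | h
  · exact h
  · exfalso
    apply hLX
    have : L ⊓ X = L := AddSubgroup.eq_of_le_of_card_ge inf_le_left (by rw [hL, h])
    rw [← this]; exact inf_le_right
  · exfalso
    apply hL1
    exact top_le_iff.mp (h ▸ inf_le_left)

/-- **Unipotent lemma.** -/
theorem la_unipotent (hp : p.Prime) (hV : Nat.card V = p ^ 2) {L : AddSubgroup V} (hL0 : L ≠ ⊥)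
    (hL1 : L ≠ ⊤) (f : V →+ V) (hfL : ∀ l ∈ L, f l ∈ L) (V₀ : AddSubgroup V)
    (h1 : ∀ x, f x - x ∈ V₀) (h2 : ∀ x ∈ V₀, f x = x) :
    (∀ l ∈ L, f l = l) ∧ (∀ x, f x - x ∈ L) := by
  set Fix : AddSubgroup V := AddMonoidHom.eqLocus f (AddMonoidHom.id V) with hFix
  have hmem : ∀ x, x ∈ Fix ↔ f x = x := fun x => by
    rw [hFix]; exact Iff.rfl
  have hV₀ : V₀ ≤ Fix := fun x hx => (hmem x).mpr (h2 x hx)
  by_cases htop : Fix = ⊤
  · have hall : ∀ x, f x = x := fun x => (hmem x).mp (htop ▸ AddSubgroup.mem_top x)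
    refine ⟨fun l _ => hall l, fun x => ?_⟩
    rw [hall x, sub_self]; exact L.zero_mem
  have hLFix : L ≤ Fix := by
    by_contra hnot
    have hbot := la_inf_eq_bot hp hV hL0 hL1 hnot
    apply hnot
    intro l hl
    have h3 : f l - l ∈ L ⊓ Fix := ⟨L.sub_mem (hfL l hl) hl, hV₀ (h1 l)⟩
    rw [hbot, AddSubgroup.mem_bot, sub_eq_zero] at h3
    exact (hmem l).mpr h3
  have hFixL : Fix = L := la_eq_of_le hp hV hL0 hL1 hLFix htop
  refine ⟨fun l hl => (hmem l).mp (hLFix hl), fun x => ?_⟩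
  rw [← hFixL]; exact hV₀ (h1 x)

/-- **The dichotomy at `p`.** -/
theorem la_at_p (hp : p.Prime) (hV : Nat.card V = p ^ 2) {L : AddSubgroup V} (hL0 : L ≠ ⊥)
    (hL1 : L ≠ ⊤) {F : AddSubgroup V} (hF : F ≠ ⊤) :
    (L ≤ F ∧ F = L) ∨ (L ⊓ F = ⊥) := by
  by_cases h : L ≤ F
  · exact Or.inl ⟨h, la_eq_of_le hp hV hL0 hL1 h hF⟩
  · exact Or.inr (la_inf_eq_bot hp hV hL0 hL1 h)

end

end Fermat.Agent.S13
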