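import Mathlib
import Fermat.Agent.S13.LinAlg

/-!
# S13 library: the two subgroups attached to a stable subgroup

`G` acts on the abelian group `V` by additive maps and `L` is a `G`-stable subgroup of `V`.

* `glH1 L` : the pointwise stabiliser of `L` (kernel of the character on `L`);
* `glH2 L hL` : the elements acting trivially on `V ⧸ L` (kernel of the character on `V ⧸ L`).

Both are normal subgroups.
-/

set_option autoImplicit false

namespace Fermat.Agent.S13

section abstractH

variable {G V : Type*} [Group G] [AddCommGroup V] [DistribMulAction G V] (L : AddSubgroup V)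

/-- the pointwise stabiliser of `L`. -/
def glH1 : Subgroup G where
  carrier := {g | ∀ l ∈ L, g • l = l}
  mul_mem' := by
    intro a b ha hb l hl
    rw [mul_smul, hb l hl, ha l hl]
  one_mem' := fun l _ => one_smul G l
  inv_mem' := by
    intro a ha l hl
    rw [inv_smul_eq_iff, ha l hl]

lemma mem_glH1 {g : G} : g ∈ glH1 (G := G) L ↔ ∀ l ∈ L, g • l = l := Iff.rfl

variable {L}

/-- the elements of `G` acting trivially on `V ⧸ L`. -/
def glH2 (hL : ∀ g : G, ∀ l ∈ L, g • l ∈ L) : Subgroup G where
  carrier := {g | ∀ x : V, g • x - x ∈ L}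
  mul_mem' := by
    intro a b ha hb x
    have h1 : (a * b) • x - x = a • (b • x - x) + (a • x - x) := by
      rw [mul_smul, smul_sub]; abel
    rw [h1]
    exact L.add_mem (hL a _ (hb x)) (ha x)
  one_mem' := fun x => by rw [one_smul, sub_self]; exact L.zero_mem
  inv_mem' := by
    intro a ha x
    have h1 : a⁻¹ • x - x = -(a⁻¹ • (a • x - x)) := by
      rw [smul_sub, inv_smul_smul]; abel
    rw [h1]
    exact L.neg_mem (hL a⁻¹ _ (ha x))

lemma mem_glH2 (hL : ∀ g : G, ∀ l ∈ L, g • l ∈ L) {g : G} :
    g ∈ glH2 hL ↔ ∀ x : V, g • x - x ∈ L := Iff.rfl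

lemma glH1_normal (hL : ∀ g : G, ∀ l ∈ L, g • l ∈ L) : (glH1 (G := G) L).Normal := by
  constructor
  intro n hn g l hl
  rw [mul_smul, mul_smul, hn _ (hL g⁻¹ l hl), smul_inv_smul]

lemma glH2_normal (hL : ∀ g : G, ∀ l ∈ L, g • l ∈ L) : (glH2 hL).Normal := by
  constructor
  intro n hn g x
  have h1 : (g * n * g⁻¹) • x - x = g • (n • (g⁻¹ • x) - g⁻¹ • x) := by
    rw [mul_smul, mul_smul, smul_sub, smul_inv_smul]
  rw [h1]
  exact hL g _ (hn _)

end abstractH

end Fermat.Agent.S13
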