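import Mathlib
import Fermat.Prelude.Def_FLTPrelim_CofixedLine
import Fermat.Prelude.Def_FLTPrelim_Ramification
import Fermat.Agent.S05
import Fermat.Agent.S13.LinAlg
import Fermat.Agent.S13.TwoSubgroups
import Fermat.Agent.S13.Local.AtP
import Fermat.Agent.S13.Ladder.Torsion

/-!
# S13 library: the global assembly (inputs as hypotheses)

`as_main`: the statement of S13 from
* the structure of `E[p]` (`|E[p]| = p²`, from the ladder files),
* S05 (odd primes `q ≠ p`), `ap_sub_inKerRed` (the prime `p`),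
* and the following inputs, taken as hypotheses here and discharged in `S13.lean`:
  the Minkowski-type statement `hG1`, the fixed field statement `hfix`, openness `hopen`,
  existence of valuation subrings `hex`, the three local statements at `2` (`hL2a`, `hL2b`,
  `hL2c`) and the Vieta statement at `p` (`hLp`).
-/

set_option autoImplicit false
set_option linter.unusedSectionVars false
set_option linter.unusedVariables false
set_option linter.style.haveILetI false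

namespace Fermat.Agent.S13

open WeierstrassCurve WeierstrassCurve.Affine WeierstrassCurve.Affine.Point
open Fermat.Agent.S05

/-- the Frey curve over `ℚ̄`. -/
noncomputable abbrev asE (P : FreyPackage) : Affine (AlgebraicClosure ℚ) := (P.freyCurve⁄(AlgebraicClosure ℚ))

/-- the `p`-torsion of the Frey curve over `ℚ̄`. -/
noncomputable abbrev asV (P : FreyPackage) : Submodule ℤ (asE P).Point :=
  Submodule.torsionBy ℤ (P.freyCurve⁄(AlgebraicClosure ℚ)).Point P.p

local notation "Qb" => AlgebraicClosure ℚ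
local notation "Gq" => (AlgebraicClosure ℚ ≃ₐ[ℚ] AlgebraicClosure ℚ)

variable (P : FreyPackage)

lemma as_coe_smul (σ : Gq) (x : asV P) : ((σ • x : asV P) : (asE P).Point) = σ • (x : (asE P).Point) :=
  rfl

lemma as_nsmul_eq_zero (x : asV P) : P.p • (x : (asE P).Point) = 0 := by
  have := x.2
  rwa [Submodule.mem_torsionBy_iff, natCast_zsmul] at this

lemma as_mem_of_nsmul {T : (asE P).Point} (hT : P.p • T = 0) : T ∈ asV P := by
  rw [Submodule.mem_torsionBy_iff, natCast_zsmul]; exact hT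

lemma as_p_odd : Odd P.p := P.hp_odd

lemma as_p_ne_two : P.p ≠ 2 := by have := P.hp5; omega

lemma as_card : Nat.card (asV P) = P.p ^ 2 :=
  ld_natCard_torsionBy P.freyCurve (freyL_Δ_ne_zero P) (as_p_odd P)

lemma as_finite : Finite (asV P) :=
  ld_finite_torsionBy P.freyCurve (freyL_Δ_ne_zero P) (as_p_odd P)

/-- the action of `σ` as an additive endomorphism of `E[p]`. -/
noncomputable def asAct (σ : Gq) : asV P →+ asV P := DistribSMul.toAddMonoidHom (asV P) σ

@[simp] lemma asAct_apply (σ : Gq) (x : asV P) : asAct P σ x = σ • x := rfl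

section main

variable {P}
variable (L : AddSubgroup (asV P)) (hL0 : L ≠ ⊥) (hL1 : L ≠ ⊤)
  (hstab : ∀ σ : Gq, ∀ l ∈ L, σ • l ∈ L)

include hL0 hL1 hstab

/-- odd primes `ℓ ≠ p`: inertia lies in both subgroups (S05). -/
lemma as_odd {ℓ : ℕ} (hℓ : ℓ.Prime) (hℓ2 : ℓ ≠ 2) (hℓp : ℓ ≠ P.p)
    (A : ValuationSubring Qb) (hA : A.LiesOverPrime ℓ) :
    A.inertiaSubgroupIn ℚ ≤ glH1 (G := Gq) L ⊓ glH2 hstab := by
  intro σ hσ
  have h := Fermat.Agent.S05.result P hℓ hℓ2 hℓp A hA σ hσ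
  refine ⟨fun l _ => h l, fun x => ?_⟩
  have hx : σ • x = x := h x
  rw [hx, sub_self]; exact L.zero_mem

/-- the prime `2`: inertia lies in both subgroups (unipotency). -/
lemma as_two
    (hL2a : ∀ A : ValuationSubring Qb, A.LiesOverPrime 2 → ∀ σ ∈ A.inertiaSubgroupIn ℚ,
      ∀ T : (asE P).Point, σ • T - T = 0 ∨ ∃ (X Y : Qb) (H : (asE P).Nonsingular X Y),
        σ • T - T = Point.some X Y H ∧ 1 ≤ A.valuation X)
    (hL2b : ∀ A : ValuationSubring Qb, A.LiesOverPrime 2 → ∀ σ ∈ A.inertiaSubgroupIn ℚ,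
      ∀ (x y : Qb) (h : (asE P).Nonsingular x y), P.p • (Point.some x y h : (asE P).Point) = 0 →
        1 ≤ A.valuation x → σ • (Point.some x y h : (asE P).Point) = Point.some x y h)
    (A : ValuationSubring Qb) (hA : A.LiesOverPrime 2) :
    A.inertiaSubgroupIn ℚ ≤ glH1 (G := Gq) L ⊓ glH2 hstab := by
  intro σ hσ
  have := as_finite P
  set f : asV P →+ asV P := asAct P σ with hf
  set V₀ : AddSubgroup (asV P) := (f - AddMonoidHom.id (asV P)).range with hV₀
  have h1 : ∀ x, f x - x ∈ V₀ := fun x => ⟨x, rfl⟩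
  have h2 : ∀ x ∈ V₀, f x = x := by
    rintro _ ⟨x, rfl⟩
    set y : asV P := (f - AddMonoidHom.id (asV P)) x with hy
    have hy1 : (y : (asE P).Point) = σ • (x : (asE P).Point) - x := rfl
    apply Subtype.ext
    show σ • (y : (asE P).Point) = y
    rcases hL2a A hA σ hσ (x : (asE P).Point) with h0 | ⟨X, Y, H, hXY, hX⟩
    · rw [hy1, h0]; exact ga_smul_zero σ
    · have hp := as_nsmul_eq_zero P y
      rw [hy1, hXY] at hp ⊢
      exact hL2b A hA σ hσ X Y H hp hX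
  obtain ⟨r1, r2⟩ := la_unipotent P.pp (as_card P) hL0 hL1 f (fun l hl => hstab σ l hl) V₀ h1 h2
  exact ⟨fun l hl => r1 l hl, fun x => r2 x⟩

/-- the kernel of reduction inside `E[p]`, as a subgroup. -/
def asF (A : ValuationSubring Qb) (hW : IntegralModel (asE P) A) : AddSubgroup (asV P) where
  carrier := {x | InKerRed A (x : (asE P).Point)}
  add_mem' := fun {a b} ha hb => (InKerRed.add_sub hW ha hb).1
  zero_mem' := inKerRed_zero
  neg_mem' := fun {a} ha => InKerRed.neg ha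

omit hL0 hL1 hstab in
lemma mem_asF {A : ValuationSubring Qb} {hW : IntegralModel (asE P) A} {x : asV P} :
    x ∈ asF A hW ↔ InKerRed A (x : (asE P).Point) := Iff.rfl

/-- the prime `p`: inertia lies in one of the two subgroups. -/
lemma as_p
    (hLp : ∀ A : ValuationSubring Qb, A.LiesOverPrime P.p → ∀ S : Set (asE P).Point,
      (0 : (asE P).Point) ∈ S → (∃ T ∈ S, T ≠ 0) → (∀ T ∈ S, P.p • T = 0) → (∀ T ∈ S, -T ∈ S) →
      (∀ σ : Gq, ∀ T ∈ S, σ • T ∈ S) → (∃ T : (asE P).Point, P.p • T = 0 ∧ T ∉ S) →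
        ∃ T : (asE P).Point, P.p • T = 0 ∧ T ≠ 0 ∧ ¬ InKerRed A T)
    (A : ValuationSubring Qb) (hA : A.LiesOverPrime P.p) :
    A.inertiaSubgroupIn ℚ ≤ glH1 (G := Gq) L ∨ A.inertiaSubgroupIn ℚ ≤ glH2 hstab := by
  have := as_finite P
  have hW : IntegralModel (asE P) A := freyL_integralModel P A hA P.pp (as_p_ne_two P)
  -- `F ≠ ⊤`
  have hF : asF A hW ≠ ⊤ := by
    intro htop
    set S : Set (asE P).Point := {T | ∃ l ∈ L, (l : (asE P).Point) = T} with hS
    have c1 : ∃ T ∈ S, T ≠ 0 := by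
      obtain ⟨⟨l, hl⟩, hl0⟩ := (AddSubgroup.ne_bot_iff_exists_ne_zero).mp hL0
      refine ⟨l, ⟨l, hl, rfl⟩, fun h => hl0 (Subtype.ext (Subtype.ext h))⟩
    have c2 : ∀ T ∈ S, P.p • T = 0 := by
      rintro _ ⟨l, _, rfl⟩; exact as_nsmul_eq_zero P l
    have c3 : ∀ T ∈ S, -T ∈ S := by
      rintro _ ⟨l, hl, rfl⟩; exact ⟨-l, L.neg_mem hl, rfl⟩
    have c4 : ∀ σ : Gq, ∀ T ∈ S, σ • T ∈ S := by
      rintro σ _ ⟨l, hl, rfl⟩; exact ⟨σ • l, hstab σ l hl, rfl⟩
    have c5 : ∃ T : (asE P).Point, P.p • T = 0 ∧ T ∉ S := by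
      obtain ⟨x, -, hx⟩ := SetLike.exists_of_lt (lt_top_iff_ne_top.mpr hL1)
      refine ⟨x, as_nsmul_eq_zero P x, ?_⟩
      rintro ⟨l, hl, hlx⟩
      exact hx ((Subtype.ext hlx : l = x) ▸ hl)
    obtain ⟨T, hT, -, hTk⟩ := hLp A hA S ⟨0, L.zero_mem, rfl⟩ c1 c2 c3 c4 c5
    have : (⟨T, as_mem_of_nsmul P hT⟩ : asV P) ∈ asF A hW := htop ▸ AddSubgroup.mem_top _
    exact hTk this
  have hmove : ∀ σ ∈ A.inertiaSubgroupIn ℚ, ∀ x : asV P, σ • x - x ∈ asF A hW := by
    intro σ hσ x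
    exact ap_sub_inKerRed P P.pp (as_p_ne_two P) A hA σ hσ x (as_nsmul_eq_zero P x)
  rcases la_at_p P.pp (as_card P) hL0 hL1 hF with ⟨-, hFL⟩ | hbot
  · right
    intro σ hσ x
    have := hmove σ hσ x
    rwa [hFL] at this
  · left
    intro σ hσ l hl
    have h3 : σ • l - l ∈ L ⊓ asF A hW := ⟨L.sub_mem (hstab σ l hl) hl, hmove σ hσ l⟩
    rw [hbot, AddSubgroup.mem_bot, sub_eq_zero] at h3
    exact h3

/-- **The global statement.** -/
theorem as_main
    (hG1 : ∀ (N : Subgroup Gq), N.Normal → IsOpen (N : Set Gq) →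
      (∀ ℓ : ℕ, ℓ.Prime → ∃ A : ValuationSubring Qb, A.LiesOverPrime ℓ ∧
        A.inertiaSubgroupIn ℚ ≤ N) → N = ⊤)
    (hfix : ∀ x : Qb, (∀ σ : Gq, σ x = x) → x ∈ (algebraMap ℚ Qb).range)
    (hopen : ∀ (s : Finset Qb) (H : Subgroup Gq), (∀ σ : Gq, (∀ x ∈ s, σ x = x) → σ ∈ H) →
      IsOpen (H : Set Gq))
    (hex : ∀ ℓ : ℕ, ℓ.Prime → ∃ A : ValuationSubring Qb, A.LiesOverPrime ℓ)
    (hL2a : ∀ A : ValuationSubring Qb, A.LiesOverPrime 2 → ∀ σ ∈ A.inertiaSubgroupIn ℚ,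
      ∀ T : (asE P).Point, σ • T - T = 0 ∨ ∃ (X Y : Qb) (H : (asE P).Nonsingular X Y),
        σ • T - T = Point.some X Y H ∧ 1 ≤ A.valuation X)
    (hL2b : ∀ A : ValuationSubring Qb, A.LiesOverPrime 2 → ∀ σ ∈ A.inertiaSubgroupIn ℚ,
      ∀ (x y : Qb) (h : (asE P).Nonsingular x y), P.p • (Point.some x y h : (asE P).Point) = 0 →
        1 ≤ A.valuation x → σ • (Point.some x y h : (asE P).Point) = Point.some x y h)
    (hL2c : ∀ (x y : ℚ) (h : (asE P).Nonsingular (algebraMap ℚ Qb x) (algebraMap ℚ Qb y)),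
      P.p • (Point.some _ _ h : (asE P).Point) = 0 → False)
    (hLp : ∀ A : ValuationSubring Qb, A.LiesOverPrime P.p → ∀ S : Set (asE P).Point,
      (0 : (asE P).Point) ∈ S → (∃ T ∈ S, T ≠ 0) → (∀ T ∈ S, P.p • T = 0) → (∀ T ∈ S, -T ∈ S) →
      (∀ σ : Gq, ∀ T ∈ S, σ • T ∈ S) → (∃ T : (asE P).Point, P.p • T = 0 ∧ T ∉ S) →
        ∃ T : (asE P).Point, P.p • T = 0 ∧ T ≠ 0 ∧ ¬ InKerRed A T) :
    ∀ (σ : Gq) (x : asV P), σ • x - x ∈ L := by
  have := as_finite P
  classical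
  -- the finite set of all coordinates of points of `E[p]`
  haveI : Fintype (asV P) := Fintype.ofFinite _
  let coords : asV P → Finset Qb := fun x =>
    match (x : (asE P).Point) with
    | .zero => ∅
    | .some a b _ => {a, b}
  let s : Finset Qb := Finset.univ.biUnion coords
  have hs : ∀ σ : Gq, (∀ z ∈ s, σ z = z) → ∀ x : asV P, σ • x = x := by
    intro σ hσ x
    apply Subtype.ext
    rw [as_coe_smul]
    have hx : ∀ z ∈ coords x, σ z = z := fun z hz =>
      hσ z (Finset.mem_biUnion.mpr ⟨x, Finset.mem_univ x, hz⟩)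
    rcases hxe : (x : (asE P).Point) with _ | ⟨a, b, hab⟩
    · exact ga_smul_zero σ
    · have hc : coords x = {a, b} := by
        show (match (x : (asE P).Point) with
          | .zero => ∅
          | .some a b _ => {a, b}) = ({a, b} : Finset Qb)
        rw [hxe]
      rw [hc] at hx
      exact ga_smul_some_of_fixed σ hab (hx a (by simp)) (hx b (by simp))
  have hopen1 : IsOpen ((glH1 (G := Gq) L : Subgroup Gq) : Set Gq) :=
    hopen s _ (fun σ hσ l _ => hs σ hσ l)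
  have hopen2 : IsOpen ((glH2 hstab : Subgroup Gq) : Set Gq) :=
    hopen s _ (fun σ hσ x => by rw [hs σ hσ x, sub_self]; exact L.zero_mem)
  -- away from `p`
  have haway : ∀ ℓ : ℕ, ℓ.Prime → ℓ ≠ P.p → ∃ A : ValuationSubring Qb, A.LiesOverPrime ℓ ∧
      A.inertiaSubgroupIn ℚ ≤ glH1 (G := Gq) L ⊓ glH2 hstab := by
    intro ℓ hℓ hℓp
    obtain ⟨A, hA⟩ := hex ℓ hℓ
    refine ⟨A, hA, ?_⟩
    by_cases hℓ2 : ℓ = 2
    · subst hℓ2
      exact as_two L hL0 hL1 hstab hL2a hL2b A hA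
    · exact as_odd L hL0 hL1 hstab hℓ hℓ2 hℓp A hA
  obtain ⟨A₀, hA₀⟩ := hex P.p P.pp
  rcases as_p L hL0 hL1 hstab hLp A₀ hA₀ with hp1 | hp2
  · -- `H1 = ⊤` is impossible
    exfalso
    have htop : glH1 (G := Gq) L = ⊤ := by
      refine hG1 _ (glH1_normal hstab) hopen1 (fun ℓ hℓ => ?_)
      by_cases hℓp : ℓ = P.p
      · subst hℓp; exact ⟨A₀, hA₀, hp1⟩
      · obtain ⟨A, hA, hle⟩ := haway ℓ hℓ hℓp
        exact ⟨A, hA, hle.trans inf_le_left⟩
    obtain ⟨⟨l, hl⟩, hl0'⟩ := (AddSubgroup.ne_bot_iff_exists_ne_zero).mp hL0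
    have hl0 : l ≠ 0 := fun h => hl0' (Subtype.ext h)
    have hfixl : ∀ σ : Gq, σ • (l : (asE P).Point) = l := by
      intro σ
      have : σ ∈ glH1 (G := Gq) L := htop ▸ Subgroup.mem_top σ
      exact congrArg Subtype.val (this l hl)
    have hpl := as_nsmul_eq_zero P l
    rcases hle : (l : (asE P).Point) with _ | ⟨a, b, hab⟩
    · exact hl0 (Subtype.ext hle)
    · rw [hle] at hfixl hpl
      have hab' : ∀ σ : Gq, σ a = a ∧ σ b = b := by
        intro σ
        have := hfixl σ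
        rw [Fermat.Agent.S05.smul_some σ hab] at this
        have h' := Point.some.inj this
        exact h'
      obtain ⟨a₀, ha₀⟩ := hfix a (fun σ => (hab' σ).1)
      obtain ⟨b₀, hb₀⟩ := hfix b (fun σ => (hab' σ).2)
      subst ha₀ hb₀
      exact hL2c a₀ b₀ hab hpl
  · have htop : glH2 hstab = ⊤ := by
      refine hG1 _ (glH2_normal hstab) hopen2 (fun ℓ hℓ => ?_)
      by_cases hℓp : ℓ = P.p
      · subst hℓp; exact ⟨A₀, hA₀, hp2⟩
      · obtain ⟨A, hA, hle⟩ := haway ℓ hℓ hℓp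
        exact ⟨A, hA, hle.trans inf_le_right⟩
    intro σ x
    have : σ ∈ glH2 hstab := htop ▸ Subgroup.mem_top σ
    exact this x

end main

end Fermat.Agent.S13
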