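import Mathlib
import Fermat.Agent.S13.Assembly
import Fermat.Agent.S13.Global.UnramifiedOne
import Fermat.Agent.S13.Local.AtTwo
import Fermat.Agent.S13.Local.NoTorsionTwo
import Fermat.Agent.S13.Local.Vieta

/-!
# S13 library: wiring of the landed inputs into `as_main`

`wr_main`: the conclusion of S13 (for a stable subgroup `L` of `E[p]`, `L ≠ ⊥`, `L ≠ ⊤`) from the
remaining input: the rational torsion statement at `2` (`hL2c`).  `wr_result`: the statement of
S13 from this input.
-/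

set_option autoImplicit false
set_option linter.unusedSectionVars false
set_option linter.unusedVariables false
set_option linter.style.haveILetI false

namespace Fermat.Agent.S13

open WeierstrassCurve WeierstrassCurve.Affine WeierstrassCurve.Affine.Point
open Fermat.Agent.S05

local notation "Qb" => AlgebraicClosure ℚ
local notation "Gq" => (AlgebraicClosure ℚ ≃ₐ[ℚ] AlgebraicClosure ℚ)

/-- Instance-path repair: `ℚ̄` is algebraic over `ℚ`. -/
local instance wrQbarIsAlgebraic : Algebra.IsAlgebraic ℚ (AlgebraicClosure ℚ) :=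
  AlgebraicClosure.isAlgebraic ℚ

variable {P : FreyPackage}

/-- `[NT2]` for the Frey curve at `2`. -/
lemma wr_noTorsion_two (A : ValuationSubring Qb) (hA : A.LiesOverPrime 2)
    (T : (asE P).Point) (hT : InKerRed A T) (hpT : P.p • T = 0) : T = 0 := by
  obtain ⟨h₂, h₄, h₆, h₈⟩ := frey2_b_mem P A hA
  have hp2 : (2 : ℕ) ≠ P.p := fun h => as_p_ne_two P h.symm
  have hpA : A.valuation ((P.p : ℕ) : Qb) = 1 := prime_unit A hA Nat.prime_two P.pp hp2
  exact nt2_eq_zero_of_nsmul_eq_zero h₂ h₄ h₆ h₈ hpA hT hpT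

theorem wr_main (L : AddSubgroup (asV P)) (hL0 : L ≠ ⊥) (hL1 : L ≠ ⊤)
    (hstab : ∀ σ : Gq, ∀ l ∈ L, σ • l ∈ L)
    (hL2c : ∀ (x y : ℚ) (h : (asE P).Nonsingular (algebraMap ℚ Qb x) (algebraMap ℚ Qb y)),
      P.p • (Point.some _ _ h : (asE P).Point) = 0 → False) :
    ∀ (σ : Gq) (x : asV P), σ • x - x ∈ L := by
  refine as_main L hL0 hL1 hstab ?_ g1_mem_range_of_fixed g1_isOpen_of_finset g1_exists_liesOver
    ?_ ?_ hL2c (fun A hA S h0 c1 c2 c3 c4 c5 => lp_exists_not_inKerRed P A hA S h0 c1 c2 c3 c4 c5)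
  · intro N hN hopen h
    haveI := hN
    exact g1_eq_top' N hopen h
  · intro A hA σ hσ T
    exact l2_sub_mem_E0 P A hA hσ T
  · intro A hA σ hσ x y h hT hx
    exact l2_fixed_of_E0 P A hA hσ (fun T hT hpT => wr_noTorsion_two A hA T hT hpT) h hT hx

/-- The statement of S13 from the remaining input. -/
theorem wr_result (P : FreyPackage)
    (hred : ¬ GaloisRepIsIrreducible (K := AlgebraicClosure ℚ) ℚ P.freyCurve P.p)
    (hL2c : ∀ (x y : ℚ) (h : (asE P).Nonsingular (algebraMap ℚ Qb x) (algebraMap ℚ Qb y)),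
      P.p • (Point.some _ _ h : (asE P).Point) = 0 → False) :
    HasGaloisStableCofixedLine (K := AlgebraicClosure ℚ) ℚ P.freyCurve P.p := by
  haveI : Fact P.p.Prime := ⟨P.pp⟩
  have hnt : Nontrivial (asV P) :=
    ld_nontrivial_torsionBy P.freyCurve (freyL_Δ_ne_zero P) (as_p_ne_two P)
  -- a stable submodule different from `⊥` and `⊤`
  obtain ⟨N, hNstab, hN0, hN1⟩ : ∃ N : Submodule (ZMod P.p) (asV P),
      IsGaloisStable ℚ N ∧ N ≠ ⊥ ∧ N ≠ ⊤ := by
    by_contra hcon
    apply hred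
    refine ⟨hnt, fun N hN => ?_⟩
    by_contra hN'
    rw [not_or] at hN'
    exact hcon ⟨N, hN, hN'.1, hN'.2⟩
  refine ⟨N, hNstab, hN0, hN1, ?_⟩
  have hL0 : N.toAddSubgroup ≠ ⊥ := by
    intro h
    apply hN0
    apply Submodule.toAddSubgroup_injective
    rw [h, Submodule.bot_toAddSubgroup]
  have hL1 : N.toAddSubgroup ≠ ⊤ := by
    intro h
    apply hN1
    apply Submodule.toAddSubgroup_injective
    rw [h, Submodule.top_toAddSubgroup]
  intro σ x
  exact wr_main N.toAddSubgroup hL0 hL1 (fun σ l hl => hNstab σ l hl) hL2c σ x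

end Fermat.Agent.S13
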